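import Mathlib

/-!
# S17, FC: linear algebra   [WP FC-LINALG]
-/

set_option autoImplicit false

namespace Fermat.Agent.MW

open Matrix

namespace LinAlgAux

/-- a matrix of rank `ρ` has `ρ` linearly independent columns. -/
theorem exists_cols {k : Type*} [Field k] {m n : Type*} [Fintype m] [Fintype n]
    (Φ : Matrix m n k) {ρ : ℕ} (h : Φ.rank = ρ) :
    ∃ C : Fin ρ → n, LinearIndependent k (fun σ => Φ.col (C σ)) := by
  subst h
  rw [Matrix.rank_eq_finrank_span_cols]
  obtain ⟨f, hf, -, hli⟩ := Submodule.exists_fun_fin_finrank_span_eq k (Set.range Φ.col)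
  choose C hC using hf
  refine ⟨C, ?_⟩
  have : (fun σ => Φ.col (C σ)) = f := funext hC
  rw [this]
  exact hli

/-- expansion of a bordered determinant. -/
theorem det_bordered {R : Type*} [CommRing R] {ρ : ℕ} (B : Matrix (Fin (ρ + 1)) (Fin (ρ + 1)) R) :
    B.det = B 0 0 * (B.submatrix Fin.succ Fin.succ).det -
      ∑ τ : Fin ρ, B 0 τ.succ *
        ((B.submatrix Fin.succ Fin.succ).adjugate.mulVec (fun σ => B σ.succ 0)) τ := by
  cases ρ with
  | zero => simp
  | succ ρ =>
    have key : ∀ σ : Fin (ρ + 1), det (B.submatrix σ.succ.succAbove Fin.succ) =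
        (-1) ^ (σ : ℕ) * ∑ τ, B 0 τ.succ * adjugate (B.submatrix Fin.succ Fin.succ) τ σ := by
      intro σ
      rw [Matrix.det_succ_row_zero, Finset.mul_sum]
      refine Finset.sum_congr rfl fun τ _ => ?_
      rw [adjugate_fin_succ_eq_det_submatrix]
      have e1 : (B.submatrix σ.succ.succAbove Fin.succ).submatrix Fin.succ τ.succAbove =
          (B.submatrix Fin.succ Fin.succ).submatrix σ.succAbove τ.succAbove := by
        ext a b
        simp [Fin.succ_succAbove_succ]
      rw [e1]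
      simp only [submatrix_apply, Fin.succ_succAbove_zero]
      have e2 : ((-1 : R) ^ (σ : ℕ)) * ((-1) ^ ((σ : ℕ) + (τ : ℕ))) = (-1) ^ (τ : ℕ) := by
        rw [pow_add, ← mul_assoc, ← mul_pow]
        simp
      rw [← e2]
      ring
    rw [Matrix.det_succ_column_zero, Fin.sum_univ_succ]
    simp only [Fin.val_zero, pow_zero, one_mul, key, Fin.val_succ]
    rw [sub_eq_add_neg, ← Finset.sum_neg_distrib]
    congr 1
    simp only [mulVec, dotProduct, Finset.mul_sum]
    rw [Finset.sum_comm]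
    simp only [← Finset.sum_neg_distrib]
    refine Finset.sum_congr rfl fun τ _ => Finset.sum_congr rfl fun σ _ => ?_
    have e3 : ((-1 : R) ^ ((σ : ℕ) + 1)) * ((-1) ^ (σ : ℕ)) = -1 := by
      rw [pow_succ, mul_assoc, mul_comm (-1 : R), ← mul_assoc, ← mul_pow]
      simp
    calc (-1 : R) ^ ((σ : ℕ) + 1) * B σ.succ 0 *
          ((-1) ^ (σ : ℕ) * (B 0 τ.succ * (B.submatrix Fin.succ Fin.succ).adjugate τ σ))
        = (((-1 : R) ^ ((σ : ℕ) + 1)) * ((-1) ^ (σ : ℕ))) *
          (B 0 τ.succ * ((B.submatrix Fin.succ Fin.succ).adjugate τ σ * B σ.succ 0)) := by ring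
      _ = _ := by rw [e3]; ring

end LinAlgAux

variable {k : Type*} [Field k] {m n : Type*} [Fintype m] [Fintype n]

/-- a matrix of rank `ρ` has a non vanishing `ρ × ρ` minor. -/
theorem exists_minor_ne_zero (Φ : Matrix m n k) {ρ : ℕ} (h : Φ.rank = ρ) :
    ∃ (R : Fin ρ → m) (C : Fin ρ → n), (Φ.submatrix R C).det ≠ 0 := by
  obtain ⟨C, hC⟩ := LinAlgAux.exists_cols Φ h
  -- `Ψ = (Φ[·,C])ᵀ` has linearly independent rows
  set Ψ : Matrix (Fin ρ) m k := (Φ.submatrix id C)ᵀ with hΨ
  have hrow : LinearIndependent k Ψ.row := hC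
  have hrank : Ψ.rank = ρ := by
    rw [hrow.rank_matrix]
    simp
  obtain ⟨R, hR⟩ := LinAlgAux.exists_cols Ψ hrank
  refine ⟨R, C, ?_⟩
  have h1 : LinearIndependent k (Ψ.submatrix id R).col := hR
  have h2 := (Matrix.linearIndependent_cols_iff_isUnit).1 h1
  have h3 := (Matrix.isUnit_iff_isUnit_det _).1 h2
  have h4 : (Ψ.submatrix id R) = (Φ.submatrix R C)ᵀ := by
    ext a b
    simp [hΨ]
  rw [h4, det_transpose] at h3
  exact h3.ne_zero

/-- **Cramer in constant rank** (bordered determinant): if `rank Φ ≤ ρ` and `t` is in the range of `Φ`, then for ALL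
`R`, `C` and all rows `i`:  `det Φ[R,C] · t_i = ∑_σ Φ_{i, C σ} (adj Φ[R,C] · t_R)_σ`. -/
theorem det_submatrix_mul_eq (Φ : Matrix m n k) {ρ : ℕ} (h : Φ.rank ≤ ρ) {t : m → k}
    (ht : t ∈ Set.range Φ.mulVec) (R : Fin ρ → m) (C : Fin ρ → n) (i : m) :
    (Φ.submatrix R C).det * t i =
      ∑ σ : Fin ρ, Φ i (C σ) * ((Φ.submatrix R C).adjugate.mulVec (t ∘ R)) σ := by
  obtain ⟨x, rfl⟩ := ht
  have key : ∀ j : n, (Φ.submatrix R C).det * Φ i j =
      ∑ σ : Fin ρ, Φ i (C σ) * ((Φ.submatrix R C).adjugate.mulVec (fun σ' => Φ (R σ') j)) σ := by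
    intro j
    set B : Matrix (Fin (ρ + 1)) (Fin (ρ + 1)) k :=
      Φ.submatrix (Fin.cons i R : Fin (ρ + 1) → m) (Fin.cons j C : Fin (ρ + 1) → n) with hB
    have hdet : B.det = 0 := by
      by_contra hne
      have h1 : B.rank = ρ + 1 := by
        rw [Matrix.rank_of_isUnit B ((Matrix.isUnit_iff_isUnit_det _).2 (isUnit_iff_ne_zero.2 hne))]
        simp
      have h2 : B.rank ≤ Φ.rank := Matrix.rank_submatrix_le _ _ _
      omega
    have hsub : B.submatrix Fin.succ Fin.succ = Φ.submatrix R C := by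
      ext a b
      simp [hB]
    have := LinAlgAux.det_bordered B
    rw [hdet, hsub] at this
    simp only [hB, submatrix_apply, Fin.cons_zero, Fin.cons_succ] at this
    rw [mul_comm]
    exact (sub_eq_zero.1 this.symm)
  have hcomp : (Φ.mulVec x) ∘ R = ∑ j, x j • (fun σ' => Φ (R σ') j) := by
    ext σ'
    simp [mulVec, dotProduct, mul_comm]
  rw [hcomp, Matrix.mulVec_sum]
  simp only [Matrix.mulVec_smul, Finset.sum_apply, Pi.smul_apply, smul_eq_mul, Finset.mul_sum]
  rw [Finset.sum_comm]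
  simp only [mulVec, dotProduct] at key ⊢
  rw [Finset.mul_sum]
  refine Finset.sum_congr rfl fun j _ => ?_
  rw [← mul_assoc, key j, Finset.sum_mul]
  refine Finset.sum_congr rfl fun σ _ => ?_
  ring

end Fermat.Agent.MW
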