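import Fermat.Agent.S17.FC.Rank
import Fermat.Agent.S17.FC.LinAlg

/-!
# S17, FC: steps 2-3 (the Cramer identity, evaluated at `P`)   [WP FC-IDENT]   (no heights, no parameters)
-/

set_option autoImplicit false

namespace Fermat.Agent.MW

open AlgebraicCurve

variable {F : Type*} [Field F] [Algebra Qb F] [S27.IsFF Qb F]

namespace Setup

variable (S : Setup F)

theorem FC_identity {β : Type*} [Fintype β] {m₁ m₁' m₂ m₂' M τ ρ : ℕ}
    (h₁ : m₁ + m₁' = M) (h₂ : m₂ + m₂' = M)
    (hm' : (m₂ * S.a : ℤ) - τ + 2 * genusFF Qb F - 1 ≤ m₂' * S.a)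
    (hρ : (ρ : ℤ) = M * S.a - τ + 1 - genusFF Qb F)
    {T : Divisor Qb F} (hT : 0 ≤ T) (hτ : Divisor.degree T = τ) {U' : β → F}
    (hU' : ∀ b, U' b ∈ riemannRochSpace (m₂ • S.A - T)) (hbpf : ∀ P, ∃ b, S.evT m₂ T P (U' b) ≠ 0)
    {u : F} (hu : u ∈ riemannRochSpace (m₁ • S.A - T)) (γ' : Fin (S.n m₁'))
    (R : Fin ρ → Fin (S.n M)) (C : Fin ρ → β × Fin (S.n m₂')) (P : Place Qb F) :
    ((S.phiMat M m₂' U').submatrix R C).det * (S.evT m₁ T P u * S.x m₁' P γ') =
      ∑ σ : Fin ρ, (((S.phiMat M m₂' U').submatrix R C).adjugate.mulVec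
          (S.coord M (u * S.bas m₁' γ') ∘ R)) σ *
        (S.evT m₂ T P (U' (C σ).1) * S.x m₂' P (C σ).2) := by
  classical
  have hsub : ∀ m : ℕ, riemannRochSpace (m • S.A - T) ≤ S.V m := fun m =>
    RR.riemannRochSpace_mono (sub_le_self _ hT)
  have hbas : ∀ (m : ℕ) (i : Fin (S.n m)), S.bas m i ∈ riemannRochSpace (m • S.A - 0) := by
    intro m i
    rw [sub_zero]
    exact S.bas_mem m i
  -- products of a section of `mA - T` with a basis vector of `V m'`
  have hmul : ∀ {m m' : ℕ} (_ : m + m' = M) {v : F} (_ : v ∈ riemannRochSpace (m • S.A - T))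
      (i : Fin (S.n m')), v * S.bas m' i ∈ riemannRochSpace (M • S.A - T) ∧
        S.evT M T P (v * S.bas m' i) = S.evT m T P v * S.x m' P i := by
    intro m m' hM v hv i
    subst hM
    constructor
    · have h := S27.FFBase.mul_mem_L hv (S.bas_mem m' i)
      have e : m • S.A - T + m' • S.A = (m + m') • S.A - T := by
        rw [add_smul]; abel
      rwa [e] at h
    · have h := S.evT_mul hv (hbas m' i) P
      rw [add_zero] at h
      exact h
  set Φ := S.phiMat M m₂' U' with hΦ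
  set f : F := u * S.bas m₁' γ' with hf
  have hfL : f ∈ riemannRochSpace (M • S.A - T) := (hmul h₁ hu γ').1
  have hfV : f ∈ S.V M := hsub M hfL
  have hrange : S.coord M f ∈ Set.range Φ.mulVec :=
    S.mem_range_phiMat h₂ hT hτ hU' hbpf hm' hfL
  have hrank : Φ.rank ≤ ρ := by
    have h := S.rank_phiMat h₂ hT hτ hU' hbpf hm'
    rw [← hρ] at h
    exact le_of_eq (by exact_mod_cast h)
  set w := (Φ.submatrix R C).adjugate.mulVec (S.coord M f ∘ R) with hw
  have hcr : ∀ i, (Φ.submatrix R C).det * S.coord M f i = ∑ σ : Fin ρ, Φ i (C σ) * w σ :=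
    fun i => det_submatrix_mul_eq Φ hrank hrange R C i
  -- the identity in `F`
  have hcol : ∀ q : β × Fin (S.n m₂'), S.sec M (fun i => Φ i q) = U' q.1 * S.bas m₂' q.2 := by
    intro q
    have : (fun i => Φ i q) = S.coord M (U' q.1 * S.bas m₂' q.2) := by
      funext i
      rfl
    rw [this]
    exact S.sec_coord (hsub M (hmul h₂ (hU' q.1) q.2).1)
  have hF : (Φ.submatrix R C).det • f = ∑ σ : Fin ρ, w σ • (U' (C σ).1 * S.bas m₂' (C σ).2) := by
    conv_lhs => rw [← S.sec_coord hfV]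
    simp only [← hcol]
    unfold sec
    simp only [Finset.smul_sum, smul_smul]
    rw [Finset.sum_comm]
    refine Finset.sum_congr rfl fun i _ => ?_
    rw [hcr i, Finset.sum_smul]
    refine Finset.sum_congr rfl fun σ _ => ?_
    rw [mul_comm]
  have h1 := congrArg (S.evT M T P) hF
  rw [S.evT_smul _ hfL, (hmul h₁ hu γ').2,
    S.evT_sum _ (fun σ _ => Submodule.smul_mem _ _ (hmul h₂ (hU' (C σ).1) (C σ).2).1)] at h1
  rw [h1]
  refine Finset.sum_congr rfl fun σ _ => ?_
  rw [S.evT_smul _ (hmul h₂ (hU' (C σ).1) (C σ).2).1, (hmul h₂ (hU' (C σ).1) (C σ).2).2]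

end Setup

end Fermat.Agent.MW
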