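import Fermat.Agent.S17.FC.Minors
import Fermat.Agent.S17.FC.Identity

/-!
# S17, FC: the family comparison theorem, core form   [WP FC-CORE] (assembly of FC_minors, FC_adjs, FC_targets, FC_identity)

See the board (topic S17) for the proof.  `M = m₁ + m₁' = m₂ + m₂'`, `ρ = M a - τ + 1 - g`.
1. `Φ_z = S.phiMat M m₂' (fun b => U' b z)` has rank `ρ` for all `z ∈ X` with nonzero blocks (`rank_phiMat`); its entries are
   `IsMHPoly d'`; so the minors `Δ_{R,C}(z)` (`R : Fin ρ → _`, `C : Fin ρ → _`) are `IsMHPoly (ρ • d')` without common zero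
   on `X` (`exists_minor_ne_zero`)  ⟹ (`habs_mh_ge`)  `ρ ∑ d' habs z ≤ habs (Δ z) + C₁`.
2. target `t = coord M (U a w * bas m₁' γ')` is in the range of `Φ_z` (`mem_range_phiMat`); `det_submatrix_mul_eq` gives
   `Δ_{R,C}(z) • (U a w * bas m₁' γ') = ∑_σ c_σ • (U' (C σ).1 z * bas m₂' (C σ).2)`,
   `c = adj(Φ_z[R,C]) (t ∘ R)`.
3. apply `evT M (T z) P` (`evT_mul`, `evT_sum`, `evT_smul`):
   `Δ_{R,C}(z) * evT m₁ T P (U a w) * x m₁' P γ' = ∑_σ c_σ * evT m₂ T P (U' _ z) * x m₂' P _`.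
4. heights: LHS is a pure tensor (`habs_tensor`); RHS = (matrix `c`) * (vector `evT U' ⊗ x m₂'`) (`habs_mulVec_le`, after
   rewriting the sum over `σ` as a sum over `β × Fin (n m₂')`), `c` = (matrix of adjugate entries, `IsMHPoly ((ρ-1) • d')`) *
   (matrix `t`, `IsMHPoly d` in `w`) (`habs_matmul_le`, `habs_mh_le` twice).
-/

set_option autoImplicit false

namespace Fermat.Agent.MW

open AlgebraicCurve

variable {F : Type*} [Field F] [Algebra Qb F] [S27.IsFF Qb F]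

namespace Setup

variable (S : Setup F)

theorem FC_core {L L' : Type*} [Fintype L] [Fintype L'] {ι : L → Type*} {ι' : L' → Type*}
    [∀ l, Finite (ι l)] [∀ l, Finite (ι' l)] {α β : Type*} [Fintype α] [Fintype β]
    {m₁ m₁' m₂ m₂' M τ : ℕ} (h₁ : m₁ + m₁' = M) (h₂ : m₂ + m₂' = M)
    (hm' : (m₂ * S.a : ℤ) - τ + 2 * genusFF Qb F - 1 ≤ m₂' * S.a)
    (d : L' → ℕ) (d' : L → ℕ)
    (U : α → (∀ l, ι' l → Qb) → F) (hU : ∀ a, S.IsMHSec m₁ d (U a))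
    (U' : β → (∀ l, ι l → Qb) → F) (hU' : ∀ b, S.IsMHSec m₂ d' (U' b))
    (X : Set (∀ l, ι l → Qb)) (hX : IsMClosed X) (T : (∀ l, ι l → Qb) → Divisor Qb F)
    (hT : ∀ z ∈ X, (∀ l, z l ≠ 0) → 0 ≤ T z ∧ Divisor.degree (T z) = τ ∧
      (∀ b, U' b z ∈ riemannRochSpace (m₂ • S.A - T z)) ∧ ∀ P, ∃ b, S.evT m₂ (T z) P (U' b z) ≠ 0) :
    ∃ C : ℝ, ∀ z ∈ X, (∀ l, z l ≠ 0) → ∀ w : ∀ l, ι' l → Qb, (∀ l, w l ≠ 0) →
      (∀ a, U a w ∈ riemannRochSpace (m₁ • S.A - T z)) →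
      ∀ P, (fun a => S.evT m₁ (T z) P (U a w)) ≠ 0 →
      habs (fun a => S.evT m₁ (T z) P (U a w)) + S.h m₁' P - ∑ l, (d l : ℝ) * habs (w l) ≤
        habs (fun b => S.evT m₂ (T z) P (U' b z)) + S.h m₂' P - ∑ l, (d' l : ℝ) * habs (z l) + C := by
  classical
  by_cases hne : ∃ z ∈ X, ∀ l, z l ≠ 0
  swap
  · exact ⟨0, fun z hz hz0 => absurd ⟨z, hz, hz0⟩ hne⟩
  obtain ⟨z₀, hz₀, hz₀0⟩ := hne
  obtain ⟨hT₀, hτ₀, hU₀, hb₀⟩ := hT z₀ hz₀ hz₀0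
  obtain ⟨ρ, hρ⟩ : ∃ ρ : ℕ, (ρ : ℤ) = M * S.a - τ + 1 - genusFF Qb F :=
    ⟨_, S.rank_phiMat h₂ hT₀ hτ₀ hU₀ hb₀ hm'⟩
  obtain ⟨C₁, hC₁⟩ := S.FC_minors h₂ hm' hρ d' U' hU' X hX T hT
  obtain ⟨C₂, hC₂⟩ := S.FC_adjs ρ h₂ d' U' hU'
  obtain ⟨C₃, hC₃⟩ := S.FC_targets h₁ d U hU
  refine ⟨C₁ + C₂ + C₃ + Real.log (Fintype.card (Fin ρ × Fin ρ)), fun z hz hz0 w hw0 hUw P hP => ?_⟩
  obtain ⟨hTz, hτz, hUz, hbz⟩ := hT z hz hz0
  obtain ⟨hΔ0, hΔ⟩ := hC₁ z hz hz0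
  set Δ := S.minors M m₂' ρ (fun b => U' b z) with hΔdef
  set Ad := S.adjs M m₂' ρ (fun b => U' b z) with hAd
  set Tg : Fin (S.n M) × (α × Fin (S.n m₁')) → Qb :=
    fun q => S.coord M (U q.2.1 w * S.bas m₁' q.2.2) q.1 with hTg
  set e₁ : α → Qb := fun a => S.evT m₁ (T z) P (U a w) with he₁
  set e₂ : β → Qb := fun b => S.evT m₂ (T z) P (U' b z) with he₂
  have he₂0 : e₂ ≠ 0 := by
    obtain ⟨b, hb⟩ := hbz P
    exact Function.ne_iff.mpr ⟨b, hb⟩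
  -- the two sides of the identity
  set LHS : ((Fin ρ → Fin (S.n M)) × (Fin ρ → β × Fin (S.n m₂'))) × (α × Fin (S.n m₁')) → Qb :=
    fun i => Δ i.1 * (e₁ i.2.1 * S.x m₁' P i.2.2) with hLHS
  set E : β × Fin (S.n m₂') → Qb := fun q => e₂ q.1 * S.x m₂' P q.2 with hE
  set N : ((((Fin ρ → Fin (S.n M)) × (Fin ρ → β × Fin (S.n m₂'))) × Fin ρ × Fin ρ) ×
      (Fin (S.n M) × (α × Fin (S.n m₁')))) → Qb := fun q => Ad q.1 * Tg q.2 with hN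
  have hid : LHS = fun i => ∑ t : Fin ρ × Fin ρ,
      N ((i.1, t.1, t.2), (i.1.1 t.2, i.2)) * E (i.1.2 t.1) := by
    funext i
    obtain ⟨⟨R, Cc⟩, a, γ'⟩ := i
    have := S.FC_identity h₁ h₂ hm' hρ hTz hτz hUz hbz (hUw a) γ' R Cc P
    simp only [hLHS, hΔdef, minors, he₁]
    rw [this, Fintype.sum_prod_type]
    refine Finset.sum_congr rfl fun σ _ => ?_
    rw [Matrix.mulVec, dotProduct, Finset.sum_mul]
    rfl
  have hx₁ : S.x m₁' P ≠ 0 := S.x_ne_zero m₁' P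
  have hx₂ : S.x m₂' P ≠ 0 := S.x_ne_zero m₂' P
  have hex₁ : (fun q : α × Fin (S.n m₁') => e₁ q.1 * S.x m₁' P q.2) ≠ 0 := by
    obtain ⟨a, ha⟩ := Function.ne_iff.mp hP
    obtain ⟨γ, hγ⟩ := Function.ne_iff.mp hx₁
    exact Function.ne_iff.mpr ⟨(a, γ), mul_ne_zero ha hγ⟩
  have hLHS0 : LHS ≠ 0 := by
    obtain ⟨r, hr⟩ := Function.ne_iff.mp hΔ0
    obtain ⟨q, hq⟩ := Function.ne_iff.mp hex₁
    exact Function.ne_iff.mpr ⟨(r, q), mul_ne_zero hr hq⟩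
  have hLh : habs LHS = habs Δ + (habs e₁ + S.h m₁' P) := by
    rw [hLHS, habs_tensor hΔ0 hex₁, habs_tensor hP hx₁]
    rfl
  have hEh : habs E = habs e₂ + S.h m₂' P := by
    rw [hE, habs_tensor he₂0 hx₂]
    rfl
  have hAd0 : Ad ≠ 0 := by
    intro h0
    apply hLHS0
    rw [hid]
    funext i
    simp [hN, h0]
  have hTg0 : Tg ≠ 0 := by
    intro h0
    apply hLHS0
    rw [hid]
    funext i
    simp [hN, h0]
  have hNh : habs N = habs Ad + habs Tg := by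
    rw [hN, habs_tensor hAd0 hTg0]
  have hmain := habs_sum_mul_le (I := ((Fin ρ → Fin (S.n M)) × (Fin ρ → β × Fin (S.n m₂'))) ×
      (α × Fin (S.n m₁'))) (T := Fin ρ × Fin ρ) N E
    (fun i t => ((i.1, t.1, t.2), (i.1.1 t.2, i.2))) (fun i t => i.1.2 t.1)
  rw [← hid, hLh, hNh, hEh] at hmain
  have h2 := hC₂ z hz0 hAd0
  have h3 := hC₃ w hw0 hTg0
  linarith

end Setup

end Fermat.Agent.MW
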