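import Fermat.Agent.S17.FC.Core

/-!
# S17, FC: `h_m = m h_1 + O(1)` and the family comparison theorem   [WPs FC-HM, FC-MAIN]
-/

set_option autoImplicit false

namespace Fermat.Agent.MW

open AlgebraicCurve

variable {F : Type*} [Field F] [Algebra Qb F] [S27.IsFF Qb F]

namespace Setup

variable (S : Setup F)

/-- `FC_core` without parameters and with `T = 0`. -/
theorem FC_const {α β : Type*} [Fintype α] [Fintype β] (m : ℕ) (U : α → F) (hU : ∀ a, U a ∈ S.V m)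
    (U' : β → F) (hU' : ∀ b, U' b ∈ S.V m) (hbpf : ∀ P, ∃ b, S.ev m P (U' b) ≠ 0) :
    ∃ C : ℝ, ∀ P, (fun a => S.ev m P (U a)) ≠ 0 →
      habs (fun a => S.ev m P (U a)) ≤ habs (fun b => S.ev m P (U' b)) + C := by
  have hV : ∀ f : F, f ∈ S.V m → f ∈ riemannRochSpace (m • S.A - 0) := fun f hf => by
    rw [sub_zero]; exact hf
  have hm' : (m * S.a : ℤ) - (0 : ℕ) + 2 * genusFF Qb F - 1 ≤ ((m + 2 * genusFF Qb F : ℕ) : ℤ) * S.a := by
    have ha : (1 : ℤ) ≤ S.a := by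
      have := S.ha
      omega
    have hg : (0 : ℤ) ≤ genusFF Qb F := Int.natCast_nonneg _
    push_cast
    nlinarith
  obtain ⟨C, hC⟩ := S.FC_core (L := Empty) (L' := Empty) (ι := fun _ => Empty) (ι' := fun _ => Empty)
    (m₁ := m) (m₁' := m + 2 * genusFF Qb F) (m₂ := m) (m₂' := m + 2 * genusFF Qb F) (τ := 0)
    rfl rfl hm' 0 0 (fun a _ => U a) (fun a => IsMHSec.const (hU a))
    (fun b _ => U' b) (fun b => IsMHSec.const (hU' b)) Set.univ IsMClosed.univ (fun _ => 0)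
    (fun z _ _ => ⟨le_rfl, by simp, fun b => hV _ (hU' b), hbpf⟩)
  refine ⟨C, fun P hP => ?_⟩
  have := hC (fun l => l.elim) (Set.mem_univ _) (fun l => l.elim) (fun l => l.elim)
    (fun l => l.elim) (fun a => hV _ (hU a)) P hP
  simp only [Finset.univ_eq_empty, Finset.sum_empty, sub_zero] at this
  have e1 : (fun a => S.evT m 0 P (U a)) = fun a => S.ev m P (U a) := rfl
  have e2 : (fun b => S.evT m 0 P (U' b)) = fun b => S.ev m P (U' b) := rfl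
  rw [e1, e2] at this
  linarith

/-- evaluation of a product of sections of `A`. -/
theorem ev_prod_bas (m : ℕ) (q : Fin m → Fin (S.n 1)) (P : Place Qb F) :
    S.ev m P (∏ j, S.bas 1 (q j)) = ∏ j, S.x 1 P (q j) := by
  have h := S.evT_prod (J := Fin m) (T := fun _ => 0) (f := fun j => S.bas 1 (q j))
    (fun j => by rw [sub_zero]; exact S.bas_mem 1 (q j)) P
  rw [Finset.sum_const_zero, Fintype.card_fin] at h
  exact h

/-- [FC-HM] `h_m = m h_1 + O(1)`.  (`FC_core` without parameters (`L = L' = Empty`), `T = 0`, `m₁ = m₂ = m`, twice: the families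
`bas m` and `∏_{j < m} bas 1 (q j)`, `q : Fin m → Fin (n 1)`; `habs_pi_prod`.) -/
theorem h_eq_mul (m : ℕ) : ∃ C : ℝ, ∀ P : Place Qb F, |S.h m P - m * S.h 1 P| ≤ C := by
  have hB : ∀ q : Fin m → Fin (S.n 1), ∏ j, S.bas 1 (q j) ∈ S.V m := fun q => by
    have := S.prod_mem_V (J := Fin m) (f := fun j => S.bas 1 (q j)) (fun j => S.bas_mem 1 (q j))
    rwa [Fintype.card_fin] at this
  have hx : ∀ P : Place Qb F, (fun i => S.ev m P (S.bas m i)) ≠ 0 := fun P => S.x_ne_zero m P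
  have hp : ∀ P : Place Qb F, ∃ q : Fin m → Fin (S.n 1), S.ev m P (∏ j, S.bas 1 (q j)) ≠ 0 := by
    intro P
    obtain ⟨i, hi⟩ := Function.ne_iff.mp (S.x_ne_zero 1 P)
    refine ⟨fun _ => i, ?_⟩
    rw [ev_prod_bas]
    exact Finset.prod_ne_zero_iff.2 fun _ _ => hi
  obtain ⟨C₁, hC₁⟩ := S.FC_const m (S.bas m) (S.bas_mem m)
    (fun q : Fin m → Fin (S.n 1) => ∏ j, S.bas 1 (q j)) hB hp
  obtain ⟨C₂, hC₂⟩ := S.FC_const m (fun q : Fin m → Fin (S.n 1) => ∏ j, S.bas 1 (q j)) hB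
    (S.bas m) (S.bas_mem m) (fun P => Function.ne_iff.mp (hx P))
  refine ⟨max C₁ C₂, fun P => ?_⟩
  have e : habs (fun q : Fin m → Fin (S.n 1) => S.ev m P (∏ j, S.bas 1 (q j))) = m * S.h 1 P := by
    have : (fun q : Fin m → Fin (S.n 1) => S.ev m P (∏ j, S.bas 1 (q j))) =
        fun q : Fin m → Fin (S.n 1) => ∏ j, S.x 1 P (q j) := funext fun q => S.ev_prod_bas m q P
    rw [this, habs_pi_prod (J := Fin m) (fun _ => S.x 1 P) (fun _ => S.x_ne_zero 1 P)]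
    simp [h]
  have h1 := hC₁ P (hx P)
  have h2 := hC₂ P (by
    obtain ⟨q, hq⟩ := hp P
    exact Function.ne_iff.mpr ⟨q, hq⟩)
  rw [e] at h1 h2
  have e' : habs (fun i => S.ev m P (S.bas m i)) = S.h m P := rfl
  rw [e'] at h1 h2
  rw [abs_le]
  constructor
  · have := le_max_right C₁ C₂
    linarith
  · have := le_max_left C₁ C₂
    linarith

/-- [FC-MAIN] **FAMILY COMPARISON THEOREM.** -/
theorem FC_le {L L' : Type*} [Fintype L] [Fintype L'] {ι : L → Type*} {ι' : L' → Type*}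
    [∀ l, Finite (ι l)] [∀ l, Finite (ι' l)] {α β : Type*} [Fintype α] [Fintype β]
    (m₁ m₂ τ : ℕ) (d : L' → ℕ) (d' : L → ℕ)
    (U : α → (∀ l, ι' l → Qb) → F) (hU : ∀ a, S.IsMHSec m₁ d (U a))
    (U' : β → (∀ l, ι l → Qb) → F) (hU' : ∀ b, S.IsMHSec m₂ d' (U' b))
    (X : Set (∀ l, ι l → Qb)) (hX : IsMClosed X) (T : (∀ l, ι l → Qb) → Divisor Qb F)
    (hT : ∀ z ∈ X, (∀ l, z l ≠ 0) → 0 ≤ T z ∧ Divisor.degree (T z) = τ ∧
      (∀ b, U' b z ∈ riemannRochSpace (m₂ • S.A - T z)) ∧ ∀ P, ∃ b, S.evT m₂ (T z) P (U' b z) ≠ 0) :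
    ∃ C : ℝ, ∀ z ∈ X, (∀ l, z l ≠ 0) → ∀ w : ∀ l, ι' l → Qb, (∀ l, w l ≠ 0) →
      (∀ a, U a w ∈ riemannRochSpace (m₁ • S.A - T z)) →
      ∀ P, (fun a => S.evT m₁ (T z) P (U a w)) ≠ 0 →
      habs (fun a => S.evT m₁ (T z) P (U a w)) - m₁ * S.h 1 P - ∑ l, (d l : ℝ) * habs (w l) ≤
        habs (fun b => S.evT m₂ (T z) P (U' b z)) - m₂ * S.h 1 P - ∑ l, (d' l : ℝ) * habs (z l) + C := by
  set g := genusFF Qb F with hg
  have hm' : (m₂ * S.a : ℤ) - τ + 2 * g - 1 ≤ ((m₁ + m₂ + 2 * g : ℕ) : ℤ) * S.a := by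
    have ha : (1 : ℤ) ≤ S.a := by
      have := S.ha
      omega
    have hg0 : (0 : ℤ) ≤ g := Int.natCast_nonneg _
    have h1 : (0 : ℤ) ≤ m₁ := Int.natCast_nonneg _
    have h2 : (0 : ℤ) ≤ τ := Int.natCast_nonneg _
    push_cast
    nlinarith
  obtain ⟨C, hC⟩ := S.FC_core (m₁ := m₁) (m₁' := 2 * m₂ + 2 * g) (m₂ := m₂) (m₂' := m₁ + m₂ + 2 * g)
    (M := m₁ + (2 * m₂ + 2 * g)) (τ := τ) rfl (by ring) hm' d d' U hU U' hU' X hX T hT
  obtain ⟨C₁, hC₁⟩ := S.h_eq_mul (2 * m₂ + 2 * g)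
  obtain ⟨C₂, hC₂⟩ := S.h_eq_mul (m₁ + m₂ + 2 * g)
  refine ⟨C + C₁ + C₂, fun z hz hz0 w hw0 hUw P hP => ?_⟩
  have h0 := hC z hz hz0 w hw0 hUw P hP
  have h1 := (abs_le.1 (hC₁ P)).1
  have h2 := (abs_le.1 (hC₂ P)).2
  push_cast at h1 h2
  linarith

end Setup

end Fermat.Agent.MW
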