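import Fermat.Agent.S17.FC.Rank
import Fermat.Agent.S17.FC.LinAlg
import Fermat.Agent.S17.Curve.MHSec
import Fermat.Agent.S17.Height.Spec

/-!
# S17, FC: step 1 (the minors of `Φ_z`)   [WP FC-MINORS]
-/

set_option autoImplicit false

namespace Fermat.Agent.MW

open AlgebraicCurve

variable {F : Type*} [Field F] [Algebra Qb F] [S27.IsFF Qb F]

namespace Setup

variable (S : Setup F)

/-- the entries of `Φ_z` are multihomogeneous of multidegree `d'`. -/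
theorem isMHPoly_phiMat {L : Type*} {ι : L → Type*} {β : Type*} [Fintype β] {m₂ m₂' M : ℕ}
    (h₂ : m₂ + m₂' = M) (d' : L → ℕ) (U' : β → (∀ l, ι l → Qb) → F)
    (hU' : ∀ b, S.IsMHSec m₂ d' (U' b)) (i : Fin (S.n M)) (q : β × Fin (S.n m₂')) :
    IsMHPoly d' (fun z => S.phiMat M m₂' (fun b => U' b z) i q) := by
  subst h₂
  have h := (hU' q.1).mul (IsMHSec.const (ι := ι) (S.bas_mem m₂' q.2))
  rw [add_zero] at h
  exact h.2 i

/-- the vector of all `ρ × ρ` minors of `Φ_z` -/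
noncomputable def minors {β : Type*} [Fintype β] (M m' ρ : ℕ) (U' : β → F) :
    (Fin ρ → Fin (S.n M)) × (Fin ρ → β × Fin (S.n m')) → Qb :=
  fun RC => ((S.phiMat M m' U').submatrix RC.1 RC.2).det

theorem FC_minors {L : Type*} [Fintype L] {ι : L → Type*} [∀ l, Finite (ι l)] {β : Type*} [Fintype β]
    {m₂ m₂' M τ ρ : ℕ} (h₂ : m₂ + m₂' = M)
    (hm' : (m₂ * S.a : ℤ) - τ + 2 * genusFF Qb F - 1 ≤ m₂' * S.a)
    (hρ : (ρ : ℤ) = M * S.a - τ + 1 - genusFF Qb F)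
    (d' : L → ℕ) (U' : β → (∀ l, ι l → Qb) → F) (hU' : ∀ b, S.IsMHSec m₂ d' (U' b))
    (X : Set (∀ l, ι l → Qb)) (hX : IsMClosed X) (T : (∀ l, ι l → Qb) → Divisor Qb F)
    (hT : ∀ z ∈ X, (∀ l, z l ≠ 0) → 0 ≤ T z ∧ Divisor.degree (T z) = τ ∧
      (∀ b, U' b z ∈ riemannRochSpace (m₂ • S.A - T z)) ∧ ∀ P, ∃ b, S.evT m₂ (T z) P (U' b z) ≠ 0) :
    ∃ C : ℝ, ∀ z ∈ X, (∀ l, z l ≠ 0) → S.minors M m₂' ρ (fun b => U' b z) ≠ 0 ∧
      (ρ : ℝ) * ∑ l, (d' l : ℝ) * habs (z l) ≤ habs (S.minors M m₂' ρ (fun b => U' b z)) + C := by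
  classical
  have hp : ∀ RC : (Fin ρ → Fin (S.n M)) × (Fin ρ → β × Fin (S.n m₂')),
      IsMHPoly (ρ • d') (fun z => S.minors M m₂' ρ (fun b => U' b z) RC) := by
    intro RC
    have h := IsMHPoly.det (n := Fin ρ) (d := d')
      (M := fun i j z => S.phiMat M m₂' (fun b => U' b z) (RC.1 i) (RC.2 j))
      (fun i j => S.isMHPoly_phiMat h₂ d' U' hU' (RC.1 i) (RC.2 j))
    rw [Fintype.card_fin] at h
    exact h
  have hnz : ∀ z ∈ X, (∀ l, z l ≠ 0) → ∃ RC, S.minors M m₂' ρ (fun b => U' b z) RC ≠ 0 := by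
    intro z hz hz0
    obtain ⟨h0, hτ, hU, hbpf⟩ := hT z hz hz0
    have hr := S.rank_phiMat h₂ h0 hτ hU hbpf hm'
    rw [← hρ] at hr
    obtain ⟨R, C, hRC⟩ := exists_minor_ne_zero (S.phiMat M m₂' (fun b => U' b z))
      (ρ := ρ) (by exact_mod_cast hr)
    exact ⟨(R, C), hRC⟩
  obtain ⟨C, hC⟩ := habs_mh_ge (ρ • d') (fun RC z => S.minors M m₂' ρ (fun b => U' b z) RC) hp X hX hnz
  refine ⟨C, fun z hz hz0 => ⟨?_, ?_⟩⟩
  · obtain ⟨RC, hRC⟩ := hnz z hz hz0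
    exact Function.ne_iff.mpr ⟨RC, hRC⟩
  · have h := hC z hz hz0
    refine le_trans (le_of_eq ?_) h
    rw [Finset.mul_sum]
    refine Finset.sum_congr rfl fun l _ => ?_
    simp only [Pi.smul_apply, smul_eq_mul, Nat.cast_mul]
    ring

/-- the vector of all entries of the adjugates of the `ρ × ρ` submatrices of `Φ_z` -/
noncomputable def adjs {β : Type*} [Fintype β] (M m' ρ : ℕ) (U' : β → F) :
    ((Fin ρ → Fin (S.n M)) × (Fin ρ → β × Fin (S.n m'))) × Fin ρ × Fin ρ → Qb :=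
  fun q => ((S.phiMat M m' U').submatrix q.1.1 q.1.2).adjugate q.2.1 q.2.2

theorem FC_adjs {L : Type*} [Fintype L] {ι : L → Type*} [∀ l, Finite (ι l)] {β : Type*} [Fintype β]
    {m₂ m₂' M : ℕ} (ρ : ℕ) (h₂ : m₂ + m₂' = M)
    (d' : L → ℕ) (U' : β → (∀ l, ι l → Qb) → F) (hU' : ∀ b, S.IsMHSec m₂ d' (U' b)) :
    ∃ C : ℝ, ∀ z : ∀ l, ι l → Qb, (∀ l, z l ≠ 0) → S.adjs M m₂' ρ (fun b => U' b z) ≠ 0 →
      habs (S.adjs M m₂' ρ (fun b => U' b z)) ≤ ((ρ : ℝ) - 1) * ∑ l, (d' l : ℝ) * habs (z l) + C := by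
  classical
  have hp : ∀ q : ((Fin ρ → Fin (S.n M)) × (Fin ρ → β × Fin (S.n m₂'))) × Fin ρ × Fin ρ,
      IsMHPoly ((ρ - 1) • d') (fun z => S.adjs M m₂' ρ (fun b => U' b z) q) := by
    intro q
    have h := IsMHPoly.adjugate (n := Fin ρ) (d := d')
      (M := fun i j z => S.phiMat M m₂' (fun b => U' b z) (q.1.1 i) (q.1.2 j))
      (fun i j => S.isMHPoly_phiMat h₂ d' U' hU' (q.1.1 i) (q.1.2 j)) q.2.1 q.2.2
    rw [Fintype.card_fin] at h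
    exact h
  obtain ⟨C, hC⟩ := habs_mh_le ((ρ - 1) • d') (fun q z => S.adjs M m₂' ρ (fun b => U' b z) q) hp
  refine ⟨C, fun z hz0 hne => ?_⟩
  have hρ : 1 ≤ ρ := by
    obtain ⟨q, -⟩ := Function.ne_iff.mp hne
    exact Nat.one_le_iff_ne_zero.2 (fun h => by
      have := q.2.1.2
      omega)
  have h := hC z hz0
  refine le_trans h (le_of_eq ?_)
  congr 1
  rw [Finset.mul_sum]
  refine Finset.sum_congr rfl fun l _ => ?_
  simp only [Pi.smul_apply, smul_eq_mul, Nat.cast_mul, Nat.cast_sub hρ, Nat.cast_one]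
  ring

/-- the vector of the coordinates of all the targets `U_a(w) · bas m₁' γ'`. -/
theorem FC_targets {L' : Type*} [Fintype L'] {ι' : L' → Type*} [∀ l, Finite (ι' l)] {α : Type*}
    [Fintype α] {m₁ m₁' M : ℕ} (h₁ : m₁ + m₁' = M)
    (d : L' → ℕ) (U : α → (∀ l, ι' l → Qb) → F) (hU : ∀ a, S.IsMHSec m₁ d (U a)) :
    ∃ C : ℝ, ∀ w : ∀ l, ι' l → Qb, (∀ l, w l ≠ 0) →
      (fun q : Fin (S.n M) × (α × Fin (S.n m₁')) => S.coord M (U q.2.1 w * S.bas m₁' q.2.2) q.1) ≠ 0 →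
      habs (fun q : Fin (S.n M) × (α × Fin (S.n m₁')) => S.coord M (U q.2.1 w * S.bas m₁' q.2.2) q.1) ≤
        ∑ l, (d l : ℝ) * habs (w l) + C := by
  classical
  obtain ⟨C, hC⟩ := habs_mh_le d
    (fun (q : Fin (S.n M) × (α × Fin (S.n m₁'))) w => S.coord M (U q.2.1 w * S.bas m₁' q.2.2) q.1)
    (fun q => S.isMHPoly_phiMat h₁ d U hU q.1 q.2)
  exact ⟨C, fun w hw _ => hC w hw⟩

end Setup

end Fermat.Agent.MW
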