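import Fermat.Agent.S17.Curve.Basic
import Fermat.Agent.S17.Curve.RRFacts

/-!
# S17, FC: the multiplication matrix has constant rank   [WP FC-RANK]

`U' : β → F` sections of `mA - T` without common zero beyond `T` (`T ≥ 0`, `deg T = τ`), `M = m + m'`,
`m' a ≥ (m a - τ) + 2g - 1`.  Then `(c_{b,γ}) ↦ ∑ c_{b,γ} U'_b · bas m' γ` has image exactly `L(MA - T)`
(`IsBPF.mul_L_eq` with `D = mA - T`, `W = span U'`, `D' = m'A`).
-/

set_option autoImplicit false

namespace Fermat.Agent.MW

open AlgebraicCurve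

variable {F : Type*} [Field F] [Algebra Qb F] [S27.IsFF Qb F]

namespace Setup

variable (S : Setup F) {β : Type*} [Fintype β]

/-- the matrix of `(c_{b,γ}) ↦ ∑ c_{b,γ} U'_b · bas m' γ ∈ V M`. -/
noncomputable def phiMat (M m' : ℕ) (U' : β → F) : Matrix (Fin (S.n M)) (β × Fin (S.n m')) Qb :=
  Matrix.of fun i q => S.coord M (U' q.1 * S.bas m' q.2) i

variable {m m' M τ : ℕ} (hM : m + m' = M) {T : Divisor Qb F} {U' : β → F}

include hM in
theorem phiMat_mulVec_eq_coord (hU : ∀ b, U' b ∈ S.V m) (c : β × Fin (S.n m') → Qb) :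
    (S.phiMat M m' U').mulVec c =
      S.coord M (∑ q : β × Fin (S.n m'), c q • (U' q.1 * S.bas m' q.2)) := by
  have hy : ∀ q : β × Fin (S.n m'), U' q.1 * S.bas m' q.2 ∈ S.V M := fun q =>
    hM ▸ S.mul_mem_V (hU q.1) (S.bas_mem m' q.2)
  rw [S.coord_sum _ (fun q _ => (S.V M).smul_mem _ (hy q))]
  funext i
  rw [Finset.sum_apply]
  refine Finset.sum_congr rfl fun q _ => ?_
  rw [S.coord_smul _ (hy q), Pi.smul_apply, smul_eq_mul, mul_comm]
  rfl

include hM in
theorem sec_phiMat_mulVec (hU : ∀ b, U' b ∈ S.V m) (c : β × Fin (S.n m') → Qb) :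
    S.sec M ((S.phiMat M m' U').mulVec c) = ∑ q : β × Fin (S.n m'), c q • (U' q.1 * S.bas m' q.2) := by
  have hy : ∀ q : β × Fin (S.n m'), U' q.1 * S.bas m' q.2 ∈ S.V M := fun q =>
    hM ▸ S.mul_mem_V (hU q.1) (S.bas_mem m' q.2)
  rw [S.phiMat_mulVec_eq_coord hM hU,
    S.sec_coord ((S.V M).sum_mem fun q _ => (S.V M).smul_mem _ (hy q))]

theorem mem_V_of_mem_L_sub (hT : 0 ≤ T) {m : ℕ} {f : F} (hf : f ∈ riemannRochSpace (m • S.A - T)) :
    f ∈ S.V m :=
  S27.L_mono (sub_le_self _ hT) hf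

include hM in
theorem mem_range_phiMat (hT : 0 ≤ T) (hτ : Divisor.degree T = τ)
    (hU : ∀ b, U' b ∈ riemannRochSpace (m • S.A - T))
    (hbpf : ∀ P, ∃ b, S.evT m T P (U' b) ≠ 0)
    (hm' : (m * S.a : ℤ) - τ + 2 * genusFF Qb F - 1 ≤ m' * S.a)
    {f : F} (hf : f ∈ riemannRochSpace (M • S.A - T)) :
    S.coord M f ∈ Set.range (S.phiMat M m' U').mulVec := by
  classical
  have hUV : ∀ b, U' b ∈ S.V m := fun b => S.mem_V_of_mem_L_sub hT (hU b)
  have hW : IsBPF (m • S.A - T) (Submodule.span Qb (Set.range U')) := by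
    refine ⟨Submodule.span_le.2 (by rintro _ ⟨b, rfl⟩; exact hU b), fun P => ?_⟩
    obtain ⟨b, hb⟩ := hbpf P
    have hb0 : U' b ≠ 0 := by
      intro h0
      rw [h0, S.evT_zero] at hb
      exact hb rfl
    refine ⟨U' b, Submodule.subset_span ⟨b, rfl⟩, hb0, ?_⟩
    have h1 := (S.evT_ne_zero_iff hb0 (hU b) P).1 hb
    unfold Z at h1
    simp only [Finsupp.add_apply, S27.divOf_apply] at h1
    rw [Finsupp.sub_apply]
    linarith
  have hdeg : 2 * (genusFF Qb F : ℤ) - 1 ≤
      Divisor.degree (m' • S.A) - Divisor.degree (m • S.A - T) := by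
    rw [map_sub, map_nsmul, map_nsmul, S.degree_A, hτ]
    simp only [nsmul_eq_mul]
    linarith
  have hf' : f ∈ riemannRochSpace ((m • S.A - T) + m' • S.A) := by
    have : (m • S.A - T) + m' • S.A = M • S.A - T := by
      rw [← hM, add_smul]; abel
    rw [this]; exact hf
  have h1 := hW.mul_L_eq hdeg hf'
  -- the span is contained in the image
  have h2 : Submodule.span Qb {y : F | ∃ s ∈ Submodule.span Qb (Set.range U'),
      ∃ t ∈ riemannRochSpace (m' • S.A), y = s * t} ≤
      LinearMap.range (Fintype.linearCombination Qb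
        (fun q : β × Fin (S.n m') => U' q.1 * S.bas m' q.2)) := by
    rw [Submodule.span_le]
    rintro _ ⟨s, hs, t, ht, rfl⟩
    obtain ⟨a, rfl⟩ := (Submodule.mem_span_range_iff_exists_fun Qb).1 hs
    have ht' : S.sec m' (S.coord m' t) = t := S.sec_coord ht
    refine ⟨fun q => a q.1 * S.coord m' t q.2, ?_⟩
    have e1 : (∑ i, a i • U' i) * t = (∑ i, a i • U' i) * S.sec m' (S.coord m' t) := by rw [ht']
    rw [Fintype.linearCombination_apply, e1]
    unfold sec
    rw [Finset.sum_mul_sum, Fintype.sum_prod_type]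
    refine Finset.sum_congr rfl fun b _ => Finset.sum_congr rfl fun γ _ => ?_
    rw [smul_mul_smul_comm]
  obtain ⟨c, hc⟩ := h2 h1
  rw [Fintype.linearCombination_apply] at hc
  exact ⟨c, by rw [S.phiMat_mulVec_eq_coord hM hUV, hc]⟩

include hM in
theorem rank_phiMat (hT : 0 ≤ T) (hτ : Divisor.degree T = τ)
    (hU : ∀ b, U' b ∈ riemannRochSpace (m • S.A - T))
    (hbpf : ∀ P, ∃ b, S.evT m T P (U' b) ≠ 0)
    (hm' : (m * S.a : ℤ) - τ + 2 * genusFF Qb F - 1 ≤ m' * S.a) :
    ((S.phiMat M m' U').rank : ℤ) = M * S.a - τ + 1 - genusFF Qb F := by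
  classical
  have hUV : ∀ b, U' b ∈ S.V m := fun b => S.mem_V_of_mem_L_sub hT (hU b)
  -- `deg (mA - T) ≥ 0`
  have hdeg0 : (0 : ℤ) ≤ m * S.a - τ := by
    obtain ⟨P₀⟩ := RR.IsFF1.nonempty_place (K := Qb) (F := F)
    obtain ⟨b, hb⟩ := hbpf P₀
    have hb0 : U' b ≠ 0 := by
      intro h0
      rw [h0, S.evT_zero] at hb
      exact hb rfl
    by_contra hneg
    have h1 : Divisor.degree (m • S.A - T) < 0 := by
      rw [map_sub, map_nsmul, S.degree_A, hτ]
      simp only [nsmul_eq_mul]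
      linarith
    have h2 := hU b
    rw [S27.L_eq_bot_of_degree_neg h1, Submodule.mem_bot] at h2
    exact hb0 h2
  have hdegM : Divisor.degree (M • S.A - T) = M * S.a - τ := by
    rw [map_sub, map_nsmul, S.degree_A, hτ]
    simp
  have hMa : (M : ℤ) * S.a = m * S.a + m' * S.a := by
    rw [← hM]; push_cast; ring
  have hrr := finrank_L_eq (K := Qb) (F := F) (D := M • S.A - T) (by rw [hdegM, hMa]; linarith)
  rw [hdegM] at hrr
  rw [← hrr]
  congr 1
  -- the range of `mulVecLin` is mapped isomorphically onto `L(MA - T)` by `sec M`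
  have hinj : Function.Injective (Fintype.linearCombination Qb (S.bas M)) := by
    rw [injective_iff_map_eq_zero]
    intro c hc
    rw [Fintype.linearCombination_apply] at hc
    exact S.sec_eq_zero_iff.1 hc
  have hmap : (LinearMap.range (S.phiMat M m' U').mulVecLin).map
      (Fintype.linearCombination Qb (S.bas M)) = riemannRochSpace (M • S.A - T) := by
    apply le_antisymm
    · rintro _ ⟨_, ⟨c, rfl⟩, rfl⟩
      rw [Fintype.linearCombination_apply, Matrix.mulVecLin_apply]
      have := S.sec_phiMat_mulVec hM hUV c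
      unfold sec at this
      rw [this]
      refine Submodule.sum_mem _ fun q _ => Submodule.smul_mem _ _ ?_
      have h3 := S27.FFBase.mul_mem_L (hU q.1) (S.bas_mem m' q.2)
      have : (m • S.A - T) + m' • S.A = M • S.A - T := by
        rw [← hM, add_smul]; abel
      rwa [this] at h3
    · intro f hf
      obtain ⟨c, hc⟩ := S.mem_range_phiMat hM hT hτ hU hbpf hm' hf
      refine ⟨_, ⟨c, rfl⟩, ?_⟩
      rw [Matrix.mulVecLin_apply, hc, Fintype.linearCombination_apply]
      exact S.sec_coord (S.mem_V_of_mem_L_sub hT hf)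
  rw [Matrix.rank, ← hmap]
  exact (Submodule.equivMapOfInjective _ hinj _).finrank_eq

end Setup

end Fermat.Agent.MW
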